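import Fermat.Agent.ZDegI.Rel

/-!
# Degeneracy maps and Atkin–Lehner involutions on `Pic⁰`
-/

set_option autoImplicit false
set_option linter.unusedSectionVars false
set_option linter.style.haveILetI false

noncomputable section

open ModularCurve AlgebraicCurve

namespace Fermat.Agent.ZDegI

open Fermat.Agent.X0Places Fermat.Agent.FunField Fermat.Agent.FunField.PlaceLemmas
open Fermat.Agent.TorsCmp Fermat.Agent.ZAL Fermat.Agent.Degen Fermat.Agent.HeckeRed
open AlgebraicCurve.SemilinearAut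
open scoped Pointwise

variable {L : Type*} [Field L] [Algebra ℚ L] [IsAlgClosed L] (ι : L →+* ℂ)
  {m m' m'' : ℕ} [NeZero m] [NeZero m'] [NeZero m'']

variable (L) in
/-- pull-back along the inclusion -/
def up (h : m ∣ m') : Pic0 L (FF L m) →+ Pic0 L (FF L m') := pullPic (incl L h)

variable (L) in
/-- push-forward along the inclusion -/
def dn (h : m ∣ m') : Pic0 L (FF L m') →+ Pic0 L (FF L m) := pushPic (incl L h)

/-- Atkin–Lehner involution on classes -/
def wP {c : ℕ} (h : ExDiv c m) : Pic0 L (FF L m) →+ Pic0 L (FF L m) :=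
  DistribSMul.toAddMonoidHom _ (wS ι h)

theorem wP_apply {c : ℕ} (h : ExDiv c m) (x : Pic0 L (FF L m)) : wP ι h x = wS ι h • x := rfl

theorem wP_wP {c : ℕ} (h : ExDiv c m) (x : Pic0 L (FF L m)) : wP ι h (wP ι h x) = x := by
  rw [wP_apply, wP_apply, ← mul_smul, wS_mul_self, one_smul]

theorem wS_mul {c d : ℕ} (hcd : Nat.Coprime c d) (hc : ExDiv c m) (hd : ExDiv d m)
    (h : ExDiv (c * d) m) : wS ι h = wS ι hc * wS ι hd := by
  rw [wS, wS, wS, ← map_mul]
  congr 1
  exact AlgEquiv.ext fun x => wF_mul ι hcd hc hd h x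

theorem wP_mul {c d : ℕ} (hcd : Nat.Coprime c d) (hc : ExDiv c m) (hd : ExDiv d m)
    (h : ExDiv (c * d) m) (x : Pic0 L (FF L m)) : wP ι h x = wP ι hc (wP ι hd x) := by
  rw [wP_apply, wP_apply, wP_apply, ← mul_smul, wS_mul ι hcd hc hd h]

theorem intertwines_incl (h : m ∣ m') {c : ℕ} (hc : ExDiv c m) (hc' : ExDiv c m') :
    IntertwinesAlong (incl L h).toRingHom (wS ι hc) (wS ι hc') :=
  fun x => wF_incl ι h hc hc' x

theorem wP_up (h : m ∣ m') {c : ℕ} (hc : ExDiv c m) (hc' : ExDiv c m') (x : Pic0 L (FF L m)) :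
    up L h (wP ι hc x) = wP ι hc' (up L h x) :=
  pullPic_smul (incl L h) (intertwines_incl ι h hc hc') x

theorem dn_wP (h : m ∣ m') {c : ℕ} (hc : ExDiv c m) (hc' : ExDiv c m') (x : Pic0 L (FF L m')) :
    dn L h (wP ι hc' x) = wP ι hc (dn L h x) :=
  pushPic_smul (incl L h) (intertwines_incl ι h hc hc') x

theorem up_up (h : m ∣ m') (h' : m' ∣ m'') (h'' : m ∣ m'') (x : Pic0 L (FF L m)) :
    up L h' (up L h x) = up L h'' x := by
  rw [up, up, up, pullPic_pullPic, incl_comp h h' h'']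

theorem dn_dn (h : m ∣ m') (h' : m' ∣ m'') (h'' : m ∣ m'') (x : Pic0 L (FF L m'')) :
    dn L h (dn L h' x) = dn L h'' x := by
  rw [dn, dn, dn, pushPic_pushPic, incl_comp h h' h'']

omit [IsAlgClosed L] in
theorem ff_eq {m k : ℕ} (h : m = k) : FF L m = modularFunctionFieldFullC L k := by
  subst h
  exact HeckeRed.laurentBaseChange_full L m

theorem natCast_ne {n : ℕ} (hn : n ≠ 0) : (n : L) ≠ 0 := Degen.natCast_ne_zero' hn

theorem dn_up {a : ℕ} (ha : a.Prime) (ham : ¬ a ∣ m) (h : m ∣ m') (hm' : m' = m * a)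
    (x : Pic0 L (FF L m)) : dn L h (up L h x) = (a + 1) • x := by
  have : Fact a.Prime := ⟨ha⟩
  rw [dn, up, pushPic_pullPic]
  congr 1
  exact Fermat.Agent.AtkinLehner.finrankAlong_alpha_eq (natCast_ne (NeZero.ne m))
    (natCast_ne ha.ne_zero) ham (HeckeRed.laurentBaseChange_full L m)
    (ff_eq hm') (incl L h) (coe_incl h)

/-- base change -/
theorem up_dn {a : ℕ} {ma mb mab : ℕ} [NeZero ma] [NeZero mb] [NeZero mab] (ha : a.Prime)
    (hma : ma = m * a) (hmab : mab = mb * a) (hamb : ¬ a ∣ mb)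
    (h1 : m ∣ ma) (h2 : m ∣ mb) (h3 : ma ∣ mab) (h4 : mb ∣ mab) (x : Pic0 L (FF L mb)) :
    up L h1 (dn L h2 x) = dn L h3 (up L h4 x) := by
  have : Fact a.Prime := ⟨ha⟩
  exact pullPic_alpha_pushPic (K := L) (N := m) (M := mb) (ℓ := a) (d := 1)
    (natCast_ne (NeZero.ne mb)) (natCast_ne ha.ne_zero) hamb (by rw [mul_one]; exact h2)
    (HeckeRed.laurentBaseChange_full L m) (HeckeRed.laurentBaseChange_full L mb)
    (ff_eq hma)
    (ff_eq hmab) (incl L h2) (coe_incl' h2)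
    (incl L h1) (coe_incl h1) (incl L h4) (coe_incl h4) (incl L h3) (coe_incl' h3) x

theorem dn_w_up_aux {a : ℕ} [NeZero a] (ha : a.Prime) (ham : ¬ a ∣ m) (h : m ∣ m * a)
    (haw : ExDiv a (m * a)) (x : Pic0 L (FF L m)) :
    dn L h (wP ι haw (up L h x)) = heckeOperatorAlong L m a x := by
  rw [heckeOperatorAlong_apply, wP_apply, wS, up, ← pullPic_equiv_eq_smul, pullPic_pullPic, dn]
  have e1 : (wF ι haw).toAlgHom.comp (incl L h) = heckeBetaBar L m a :=
    AlgHom.ext fun y => wF_incl_beta ι ha ham h haw y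
  have e2 : (incl L h : FF L m →ₐ[L] FF L (m * a)) = heckeAlphaBar L m a :=
    AlgHom.ext fun y => Subtype.ext (by rw [coe_incl, coe_heckeAlphaBar])
  rw [e1, e2]

theorem dn_w_up {a : ℕ} [NeZero a] (ha : a.Prime) (ham : ¬ a ∣ m) (h : m ∣ m')
    (hm' : m' = m * a) (haw : ExDiv a m') (x : Pic0 L (FF L m)) :
    dn L h (wP ι haw (up L h x)) = heckeOperatorAlong L m a x := by
  subst hm'
  exact dn_w_up_aux ι ha ham h haw x

theorem up_hecke {l : ℕ} [NeZero l] (hl : l.Prime) (hlm : ¬ l ∣ m') (h : m ∣ m')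
    (x : Pic0 L (FF L m)) :
    up L h (heckeOperatorAlong L m l x) = heckeOperatorAlong L m' l (up L h x) :=
  pullPic_heckeOperatorAlong (d := 1) hl hlm (by rw [mul_one]; exact h) (incl L h) (coe_incl' h) x

theorem dn_hecke {l : ℕ} [NeZero l] (hl : l.Prime) (hlm : ¬ l ∣ m') (h : m ∣ m')
    (x : Pic0 L (FF L m')) :
    dn L h (heckeOperatorAlong L m' l x) = heckeOperatorAlong L m l (dn L h x) :=
  pushPic_heckeOperatorAlong (d := 1) hl hlm (by rw [mul_one]; exact h) (incl L h) (coe_incl' h) x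

theorem wP_hecke {l : ℕ} [NeZero l] (hl : l.Prime) (hlm : ¬ l ∣ m) {c : ℕ} (hc : ExDiv c m)
    (x : Pic0 L (FF L m)) :
    wP ι hc (heckeOperatorAlong L m l x) = heckeOperatorAlong L m l (wP ι hc x) := by
  rw [wP_apply, wP_apply, hecke_wS]
  exact ((Nat.Prime.coprime_iff_not_dvd hl).mpr fun h => hlm (h.trans hc.dvd)).symm

end Fermat.Agent.ZDegI
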