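import Fermat.Agent.ZDegI.IndM
import Fermat.Agent.ZDegI.Maps

/-!
# Tate modules of `J₀(m)`, `m ∣ M`: Hecke action, Atkin–Lehner involutions, degeneracy maps
-/

set_option autoImplicit false
set_option linter.unusedSectionVars false

noncomputable section

open ModularCurve ModularCurve.Period CongruenceSubgroup AlgebraicCurve

namespace Fermat.Agent.ZDegI

open Fermat.Agent.Tate Fermat.Agent.HeckeHom Fermat.Agent.TorsCmp Fermat.Agent.ZAL
open Fermat.Agent.X0Places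

local notation "Qb" => AlgebraicClosure ℚ

variable (p : ℕ) [Fact p.Prime] {M m : ℕ} [NeZero m]

/-- the action of the polynomial ring in the Hecke operators `T_l`, `l ∤ M`, on `Lm p m`,
`m ∣ M`. -/
def act (hm : m ∣ M) : TW.TPoly M ℤ_[p] →ₐ[ℤ_[p]] Module.End ℤ_[p] (Lm p m) :=
  TW.polyEnd (H := Lm p m) (heckeFam p hm) (fun _ _ => parHecke_comm p _ _ _ _)

theorem act_X (hm : m ∣ M) (l : TW.Pr M) :
    act p hm (MvPolynomial.X l) = parHecke ℤ_[p] ℤ_[p] l.2.1 (fun h => l.2.2 (h.trans hm)) :=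
  TW.polyEnd_X (H := Lm p m) _ _ l

theorem act_eq_TE (hm : m ∣ M) (e : TW.TPoly M ℤ_[p]) : act p hm e = TE p hm e := rfl

/-- the Atkin–Lehner involution `w_c` -/
def wL {c : ℕ} (h : ExDiv c m) : Module.End ℤ_[p] (Lm p m) := indM p (wP iotaQbar h)

theorem pj_wL {c : ℕ} (h : ExDiv c m) (n : ℕ) (φ : Lm p m) :
    (pj p m n (wL p h φ) : JZero m) = wS iotaQbar h • (pj p m n φ : JZero m) :=
  pj_indM p _ n φ

variable {m' : ℕ} [NeZero m']

/-- pull-back along the inclusion `FF m ⊂ FF m'` -/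
def upL (h : m ∣ m') : Lm p m →ₗ[ℤ_[p]] Lm p m' := indM p (up Qb h)

/-- push-forward along the inclusion `FF m ⊂ FF m'` -/
def dnL (h : m ∣ m') : Lm p m' →ₗ[ℤ_[p]] Lm p m := indM p (dn Qb h)

theorem pj_upL (h : m ∣ m') (n : ℕ) (φ : Lm p m) :
    (pj p m' n (upL p h φ) : JZero m') = up Qb h (pj p m n φ : JZero m) := pj_indM p _ n φ

theorem pj_dnL (h : m ∣ m') (n : ℕ) (φ : Lm p m') :
    (pj p m n (dnL p h φ) : JZero m) = dn Qb h (pj p m' n φ : JZero m') := pj_indM p _ n φ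

/-- `e x = x`, `w_c x = x` -/
def Lp (hm : m ∣ M) (e : TW.TPoly M ℤ_[p]) {c : ℕ} (h : ExDiv c m) :
    Submodule ℤ_[p] (Lm p m) where
  carrier := {x | act p hm e x = x ∧ wL p h x = x}
  add_mem' := by
    rintro x y ⟨h1, h2⟩ ⟨h3, h4⟩
    exact ⟨by rw [map_add, h1, h3], by rw [map_add, h2, h4]⟩
  zero_mem' := ⟨map_zero _, map_zero _⟩
  smul_mem' := by
    rintro a x ⟨h1, h2⟩
    exact ⟨by rw [map_smul, h1], by rw [map_smul, h2]⟩

/-- `e x = x`, `w_c x = -x` -/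
def Lq (hm : m ∣ M) (e : TW.TPoly M ℤ_[p]) {c : ℕ} (h : ExDiv c m) :
    Submodule ℤ_[p] (Lm p m) where
  carrier := {x | act p hm e x = x ∧ wL p h x = -x}
  add_mem' := by
    rintro x y ⟨h1, h2⟩ ⟨h3, h4⟩
    exact ⟨by rw [map_add, h1, h3], by rw [map_add, h2, h4]; exact (neg_add x y).symm⟩
  zero_mem' := ⟨map_zero _, by rw [map_zero]; exact (neg_zero (G := Lm p m)).symm⟩
  smul_mem' := by
    rintro a x ⟨h1, h2⟩
    exact ⟨by rw [map_smul, h1], by rw [map_smul, h2]; exact smul_neg a x⟩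

/-- the new part (at all primes), with `w_q = -1` at the primes not dividing `N` -/
def Lnew (hm : m ∣ M) (e : TW.TPoly M ℤ_[p]) (N : ℕ) : Submodule ℤ_[p] (Lm p m) where
  carrier := {x | act p hm e x = x ∧
    (∀ (k q : ℕ) [NeZero k] (_ : q.Prime) (hk : k ∣ m) (_ : m = k * q) (h : ExDiv q m),
      dnL p hk x = 0 ∧ dnL p hk (wL p h x) = 0) ∧
    ∀ (q : ℕ) (_ : q.Prime) (h : ExDiv q m), ¬ q ∣ N → wL p h x = -x}
  add_mem' := by
    rintro x y ⟨h1, h2, h3⟩ ⟨h4, h5, h6⟩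
    refine ⟨by rw [map_add, h1, h4], fun k q _ hq hk hkm h => ⟨?_, ?_⟩, fun q hq h hN => ?_⟩
    · rw [map_add, (h2 k q hq hk hkm h).1, (h5 k q hq hk hkm h).1, add_zero]
    · rw [map_add, map_add, (h2 k q hq hk hkm h).2, (h5 k q hq hk hkm h).2, add_zero]
    · rw [map_add, h3 q hq h hN, h6 q hq h hN]; exact (neg_add x y).symm
  zero_mem' := ⟨map_zero _, fun k q _ hq hk hkm h => ⟨map_zero _, by rw [map_zero, map_zero]⟩,
    fun q hq h hN => by rw [map_zero]; exact (neg_zero (G := Lm p m)).symm⟩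
  smul_mem' := by
    rintro a x ⟨h1, h2, h3⟩
    refine ⟨by rw [map_smul, h1], fun k q _ hq hk hkm h => ⟨?_, ?_⟩, fun q hq h hN => ?_⟩
    · rw [map_smul, (h2 k q hq hk hkm h).1, smul_zero]
    · rw [map_smul, map_smul, (h2 k q hq hk hkm h).2, smul_zero]
    · rw [map_smul, h3 q hq h hN]; exact smul_neg a x

variable {p}

theorem mem_Lp {hm : m ∣ M} {e : TW.TPoly M ℤ_[p]} {c : ℕ} {h : ExDiv c m} {x : Lm p m} :
    x ∈ Lp p hm e h ↔ act p hm e x = x ∧ wL p h x = x := Iff.rfl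

theorem mem_Lq {hm : m ∣ M} {e : TW.TPoly M ℤ_[p]} {c : ℕ} {h : ExDiv c m} {x : Lm p m} :
    x ∈ Lq p hm e h ↔ act p hm e x = x ∧ wL p h x = -x := Iff.rfl

theorem mem_Lnew {hm : m ∣ M} {e : TW.TPoly M ℤ_[p]} {N : ℕ} {x : Lm p m} :
    x ∈ Lnew p hm e N ↔ act p hm e x = x ∧
    (∀ (k q : ℕ) [NeZero k] (_ : q.Prime) (hk : k ∣ m) (_ : m = k * q) (h : ExDiv q m),
      dnL p hk x = 0 ∧ dnL p hk (wL p h x) = 0) ∧
    ∀ (q : ℕ) (_ : q.Prime) (h : ExDiv q m), ¬ q ∣ N → wL p h x = -x := Iff.rfl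

end Fermat.Agent.ZDegI
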