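import Fermat.Agent.ZDegI.Sys

/-!
# The old/new inequality for Tate modules
-/

set_option autoImplicit false
set_option linter.unusedSectionVars false
set_option linter.style.haveILetI false

noncomputable section

open ModularCurve ModularCurve.Period CongruenceSubgroup AlgebraicCurve
open scoped TensorProduct

namespace Fermat.Agent.ZDegI

open Fermat.Agent.Tate Fermat.Agent.HeckeHom Fermat.Agent.TorsCmp Fermat.Agent.ZAL
open Fermat.Agent.X0Places
open Module (finrank)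

section Nested

variable {R X : Type*} [CommRing R] [AddCommGroup X] [Module R X]

theorem finrank_nested {Q : Submodule R X} (P : Submodule R Q) (T : Submodule R X)
    (h : ∀ x, x ∈ T ↔ ∃ hx : x ∈ Q, (⟨x, hx⟩ : Q) ∈ P) : finrank R P = finrank R T := by
  have h1 : P.map Q.subtype = T := by
    ext x
    rw [h, Submodule.mem_map]
    constructor
    · rintro ⟨y, hy, rfl⟩
      exact ⟨y.2, hy⟩
    · rintro ⟨hx, hP⟩
      exact ⟨⟨x, hx⟩, hP, rfl⟩
  rw [← h1]
  exact LinearEquiv.finrank_eq (Submodule.equivMapOfInjective Q.subtype Q.injective_subtype P)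

end Nested

variable {p : ℕ} [Fact p.Prime] {M m m1 : ℕ} [NeZero m] [NeZero m1]

theorem indV_one_tmul (hm : m ∣ M) (hm1 : m1 ∣ M) (e : TW.TPoly M ℤ_[p]) (u : HMap M m m1)
    (x : Le p hm e) : indV hm hm1 e u ((1 : ℚ_[p]) ⊗ₜ[ℤ_[p]] x) =
      (1 : ℚ_[p]) ⊗ₜ[ℤ_[p]] (indE hm hm1 e u x) := LinearMap.baseChange_tmul _ _ _

theorem indV_eq_zero_iff (hm : m ∣ M) (hm1 : m1 ∣ M) (e : TW.TPoly M ℤ_[p]) (u : HMap M m m1)
    (x : Le p hm e) : indV hm hm1 e u ((1 : ℚ_[p]) ⊗ₜ[ℤ_[p]] x) = 0 ↔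
      toLM (indM p u.f) (x : LM p m) = 0 := by
  rw [indV_one_tmul, one_tmul_eq_zero_iff]
  constructor
  · intro h
    exact congrArg Subtype.val h
  · intro h
    exact Subtype.ext h

theorem indV_eq_self_iff (hm : m ∣ M) (e : TW.TPoly M ℤ_[p]) (u : HMap M m m)
    (x : Le p hm e) : indV hm hm e u ((1 : ℚ_[p]) ⊗ₜ[ℤ_[p]] x) = (1 : ℚ_[p]) ⊗ₜ[ℤ_[p]] x ↔
      toLM (indM p u.f) (x : LM p m) = x := by
  rw [indV_one_tmul, ← sub_eq_zero, ← TensorProduct.tmul_sub, one_tmul_eq_zero_iff, sub_eq_zero]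
  constructor
  · intro h
    exact congrArg Subtype.val h
  · intro h
    exact Subtype.ext h

theorem indV_eq_neg_iff (hm : m ∣ M) (e : TW.TPoly M ℤ_[p]) (u : HMap M m m)
    (x : Le p hm e) : indV hm hm e u ((1 : ℚ_[p]) ⊗ₜ[ℤ_[p]] x) = -((1 : ℚ_[p]) ⊗ₜ[ℤ_[p]] x) ↔
      toLM (indM p u.f) (x : LM p m) = -(x : LM p m) := by
  rw [indV_one_tmul, ← TensorProduct.tmul_neg, ← sub_eq_zero, ← TensorProduct.tmul_sub,
    one_tmul_eq_zero_iff, sub_eq_zero]
  constructor
  · intro h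
    exact congrArg Subtype.val h
  · intro h
    exact Subtype.ext h

/-- `Lp` as a submodule of the plain type -/
def LpM (hm : m ∣ M) (e : TW.TPoly M ℤ_[p]) {c : ℕ} (h : ExDiv c m) : Submodule ℤ_[p] (LM p m) :=
  Lp p hm e h

/-- `Lq` as a submodule of the plain type -/
def LqM (hm : m ∣ M) (e : TW.TPoly M ℤ_[p]) {c : ℕ} (h : ExDiv c m) : Submodule ℤ_[p] (LM p m) :=
  Lq p hm e h

theorem finrank_plus (hm : m ∣ M) (e : TW.TPoly M ℤ_[p]) {c : ℕ} (h : ExDiv c m) :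
    finrank ℚ_[p] (LinearMap.ker (indV hm hm e (wH hm h) - 1 : Module.End ℚ_[p] (VV p hm e))) =
      finrank ℤ_[p] (Lp p hm e h) := by
  let P : Submodule ℤ_[p] (Le p hm e) := (LpM hm e h).comap (Le p hm e).subtype
  have h1 := finrank_eq_of_iff P
    (LinearMap.ker (indV hm hm e (wH hm h) - 1 : Module.End ℚ_[p] (VV p hm e))) (by
      intro x
      rw [LinearMap.mem_ker, LinearMap.sub_apply, Module.End.one_apply, sub_eq_zero,
        indV_eq_self_iff]
      exact ⟨fun h => ⟨x.2, h⟩, fun h => h.2⟩)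
  have h2 := finrank_nested P (LpM hm e h) (fun x => ⟨fun hx => ⟨hx.1, hx⟩, fun hx => hx.2⟩)
  exact h1.trans h2

theorem finrank_minus (hm : m ∣ M) (e : TW.TPoly M ℤ_[p]) {c : ℕ} (h : ExDiv c m) :
    finrank ℚ_[p] (LinearMap.ker (indV hm hm e (wH hm h) + 1 : Module.End ℚ_[p] (VV p hm e))) =
      finrank ℤ_[p] (Lq p hm e h) := by
  let P : Submodule ℤ_[p] (Le p hm e) := (LqM hm e h).comap (Le p hm e).subtype
  have h1 := finrank_eq_of_iff P
    (LinearMap.ker (indV hm hm e (wH hm h) + 1 : Module.End ℚ_[p] (VV p hm e))) (by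
      intro x
      rw [LinearMap.mem_ker, LinearMap.add_apply, Module.End.one_apply, add_eq_zero_iff_eq_neg,
        indV_eq_neg_iff]
      exact ⟨fun h => ⟨x.2, h⟩, fun h => h.2⟩)
  have h2 := finrank_nested P (LqM hm e h) (fun x => ⟨fun hx => ⟨hx.1, hx⟩, fun hx => hx.2⟩)
  exact h1.trans h2

theorem trace_w (hm : m ∣ M) (e : TW.TPoly M ℤ_[p]) {c : ℕ} (h : ExDiv c m) :
    LinearMap.trace ℚ_[p] (VV p hm e) (indV hm hm e (wH hm h)) =
      (finrank ℤ_[p] (Lp p hm e h) : ℚ_[p]) - finrank ℤ_[p] (Lq p hm e h) := by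
  rw [trace_invol (indV hm hm e (wH hm h)) (fun x => ?_), finrank_plus, finrank_minus]
  have h1 := indV_smul hm hm e (wH hm h) (wH hm h) 1 (fun y => by
        rw [one_smul]; exact wP_wP iotaQbar _ y) x
  rw [h1, Nat.cast_one, one_smul]

section New

variable [NeZero M] (hM : Squarefree M) (e : TW.TPoly M ℤ_[p])

/-- `Lnew` as a submodule of the plain type -/
def LnewM (hm : m ∣ M) (e : TW.TPoly M ℤ_[p]) (N : ℕ) : Submodule ℤ_[p] (LM p m) :=
  Lnew p hm e N

theorem finrank_new {N : ℕ} (hN : N ∣ M) :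
    finrank ℚ_[p] ((sys e hM).New N.primeFactors) =
      finrank ℤ_[p] (Lnew p (lev_dvd M M.primeFactors) e N) := by
  set S := M.primeFactors with hS
  have hN0 : N ≠ 0 := fun h => NeZero.ne M (Nat.eq_zero_of_zero_dvd (h ▸ hN))
  have hSS : S ⊆ M.primeFactors := fun x hx => hx
  let P : Submodule ℤ_[p] (Le p (lev_dvd M S) e) :=
    (LnewM (lev_dvd M S) e N).comap (Le p (lev_dvd M S) e).subtype
  have key : ∀ x : Le p (lev_dvd M S) e, ((1 : ℚ_[p]) ⊗ₜ[ℤ_[p]] x ∈
      (sys e hM).New N.primeFactors) ↔ x ∈ P := by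
    intro x
    rw [ZRec.DegSys.mem_New]
    have hJ : ∀ a ∈ S, lev M (S.erase a) ∣ lev M S := fun a _ => lev_mono M (Finset.erase_subset a S)
    have hlev : ∀ a ∈ S, lev M S = lev M (S.erase a) * a := by
      intro a ha
      conv_lhs => rw [← Finset.insert_erase ha]
      exact lev_insert ((Finset.erase_subset a S).trans hSS) ha (Finset.notMem_erase a S)
    have e1 : ∀ a (ha : a ∈ S), (sys e hM).J (S.erase a) S ((1 : ℚ_[p]) ⊗ₜ[ℤ_[p]] x) = 0 ↔
        toLM (dnL p (hJ a ha)) (x : LM p _) = 0 := by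
      intro a ha
      have h1 : (sys e hM).J (S.erase a) S = JS' p e (S.erase a) S := rfl
      rw [h1, JS'_eq e (hJ a ha), indV_eq_zero_iff]
      rfl
    have e2 : ∀ a (ha : a ∈ S), (sys e hM).J (S.erase a) S
        ((sys e hM).w S a ((1 : ℚ_[p]) ⊗ₜ[ℤ_[p]] x)) = 0 ↔
        toLM (dnL p (hJ a ha)) (toLM (wL p (exd hM hSS ha)) (x : LM p _)) = 0 := by
      intro a ha
      have h1 : (sys e hM).J (S.erase a) S = JS' p e (S.erase a) S := rfl
      have h2 : (sys e hM).w S a = wS' p e S a := rfl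
      rw [h1, h2, JS'_eq e (hJ a ha), wS'_eq e (exd hM hSS ha), indV_one_tmul, indV_eq_zero_iff]
      rfl
    have e3 : ∀ a (ha : a ∈ S), (sys e hM).w S a ((1 : ℚ_[p]) ⊗ₜ[ℤ_[p]] x) =
        -((1 : ℚ_[p]) ⊗ₜ[ℤ_[p]] x) ↔
        toLM (wL p (exd hM hSS ha)) (x : LM p _) = -(x : LM p _) := by
      intro a ha
      have h2 : (sys e hM).w S a = wS' p e S a := rfl
      rw [h2, wS'_eq e (exd hM hSS ha), indV_eq_neg_iff]
      rfl
    have e4 : ∀ q, q.Prime → ExDiv q (lev M S) → q ∈ S := fun q hq h =>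
      (dvd_lev_iff hSS hq).mp h.dvd
    constructor
    · rintro ⟨h1, h2⟩
      refine ⟨x.2, ?_, ?_⟩
      · intro k q _ hq hk hkq h
        have hqS := e4 q hq h
        have h3 : k = lev M (S.erase q) := by
          have := hlev q hqS
          rw [hkq] at this
          exact Nat.eq_of_mul_eq_mul_right hq.pos this
        subst h3
        exact ⟨(e1 q hqS).mp (h1 q hqS).1, (e2 q hqS).mp (h1 q hqS).2⟩
      · intro q hq h hqN
        have hqS := e4 q hq h
        refine (e3 q hqS).mp (h2 q (Finset.mem_sdiff.mpr ⟨hqS, fun h => ?_⟩))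
        exact hqN (Nat.dvd_of_mem_primeFactors h)
    · rintro ⟨-, h1, h2⟩
      refine ⟨fun a ha => ⟨?_, ?_⟩, fun q hq => ?_⟩
      · exact (e1 a ha).mpr (h1 _ a (prm ha) (hJ a ha) (hlev a ha) (exd hM hSS ha)).1
      · exact (e2 a ha).mpr (h1 _ a (prm ha) (hJ a ha) (hlev a ha) (exd hM hSS ha)).2
      · have hqS := (Finset.mem_sdiff.mp hq).1
        refine (e3 q hqS).mpr (h2 q (prm hqS) (exd hM hSS hqS) fun hqN => ?_)
        exact (Finset.mem_sdiff.mp hq).2
          (Nat.mem_primeFactors.mpr ⟨prm hqS, hqN, hN0⟩)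
  have h1 := finrank_eq_of_iff P ((sys e hM).New N.primeFactors) key
  have h2 := finrank_nested P (LnewM (lev_dvd M S) e N)
    (fun x => ⟨fun hx => ⟨hx.1, hx⟩, fun hx => hx.2⟩)
  exact h1.trans h2

end New

theorem finrank_Lp_congr {m m' c c' : ℕ} [NeZero m] [NeZero m'] (hm : m ∣ M) (hm' : m' ∣ M)
    (e : TW.TPoly M ℤ_[p]) (h : ExDiv c m) (h' : ExDiv c' m') (hmm : m = m') (hcc : c = c') :
    finrank ℤ_[p] (Lp p hm e h) = finrank ℤ_[p] (Lp p hm' e h') := by
  subst hmm hcc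
  rfl

theorem finrank_Lq_congr {m m' c c' : ℕ} [NeZero m] [NeZero m'] (hm : m ∣ M) (hm' : m' ∣ M)
    (e : TW.TPoly M ℤ_[p]) (h : ExDiv c m) (h' : ExDiv c' m') (hmm : m = m') (hcc : c = c') :
    finrank ℤ_[p] (Lq p hm e h) = finrank ℤ_[p] (Lq p hm' e h') := by
  subst hmm hcc
  rfl

theorem finrank_Lnew_congr {m m' : ℕ} [NeZero m] [NeZero m'] (hm : m ∣ M) (hm' : m' ∣ M)
    (e : TW.TPoly M ℤ_[p]) (N : ℕ) (hmm : m = m') :
    finrank ℤ_[p] (Lnew p hm e N) = finrank ℤ_[p] (Lnew p hm' e N) := by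
  subst hmm
  rfl

/-- **Old/new inequality.** -/
theorem main {M N : ℕ} [NeZero M] [NeZero N] (hM : Squarefree M) (hN : N ∣ M)
    (e : TW.TPoly M ℤ_[p])
    (h0 : ∀ (m : ℕ) [NeZero m] (hm : m ∣ M) (d : ℕ) (h : ExDiv d m), N ∣ d → m ≠ N →
      finrank ℤ_[p] (Lp p hm e h) = finrank ℤ_[p] (Lq p hm e h))
    (hNN : ExDiv N N) :
    |(finrank ℤ_[p] (Lp p hN e hNN) : ℤ) - finrank ℤ_[p] (Lq p hN e hNN)| ≤
      finrank ℤ_[p] (Lnew p (dvd_refl M) e N) := by
  have hM0 : M ≠ 0 := NeZero.ne M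
  have hN0 : N ≠ 0 := NeZero.ne N
  have hsub : N.primeFactors ⊆ M.primeFactors := Nat.primeFactors_mono hN hM0
  have hprodN : ∏ q ∈ N.primeFactors, q = N :=
    Nat.prod_primeFactors_of_squarefree (hM.squarefree_of_dvd hN)
  have hlevN : lev M N.primeFactors = N := lev_of_dvd hM hN hM0
  have hlevM : lev M M.primeFactors = M := lev_of_dvd hM dvd_rfl hM0
  have h1 : ∀ s E : Finset ℕ, N.primeFactors ⊆ E → E ⊆ s → s ⊆ M.primeFactors →
      s ≠ N.primeFactors → LinearMap.trace ℚ_[p] (VS p e s) ((sys e hM).W s E) = 0 := by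
    intro s E hE hEs hs hne
    have h2 : (sys e hM).W s E = wS' p e s (∏ q ∈ E, q) := rfl
    have h3 := exd_prod hM hs hEs
    rw [h2, wS'_eq e h3, trace_w]
    rw [h0 (lev M s) (lev_dvd M s) (∏ q ∈ E, q) h3 ?_ ?_, sub_self]
    · conv_lhs => rw [← hprodN]
      exact Finset.prod_dvd_prod_of_subset _ _ _ hE
    · intro h4
      apply hne
      ext q
      constructor
      · intro hq
        have h5 : q ∣ N := by
          rw [← h4]; exact (dvd_lev_iff hs (prm (hs hq))).mpr hq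
        exact Nat.mem_primeFactors.mpr ⟨prm (hs hq), h5, hN0⟩
      · intro hq
        have h5 : q ∣ lev M s := by rw [h4]; exact Nat.dvd_of_mem_primeFactors hq
        exact (dvd_lev_iff hs (Nat.prime_of_mem_primeFactors hq)).mp h5
  have h2 := exd_prod hM hsub (Finset.Subset.refl N.primeFactors)
  have h3 : LinearMap.trace ℚ_[p] (VS p e N.primeFactors)
      ((sys e hM).W N.primeFactors N.primeFactors) =
      (((finrank ℤ_[p] (Lp p hN e hNN) : ℤ) - finrank ℤ_[p] (Lq p hN e hNN) : ℤ) : ℚ_[p]) := by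
    have h4 : (sys e hM).W N.primeFactors N.primeFactors =
      wS' p e N.primeFactors (∏ q ∈ N.primeFactors, q) := rfl
    rw [h4, wS'_eq e h2, trace_w, finrank_Lp_congr (lev_dvd M _) hN e h2 hNN hlevN hprodN,
      finrank_Lq_congr (lev_dvd M _) hN e h2 hNN hlevN hprodN]
    push_cast
    rfl
  have h5 := ZRec.DegSys.abs_le_finrank_new (D := sys e hM) hsub h1 h3
  rw [finrank_new hM e hN, finrank_Lnew_congr (lev_dvd M _) (dvd_refl M) e N hlevM] at h5
  exact h5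

end Fermat.Agent.ZDegI
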