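import Fermat.Agent.ZRec.Trace
import Mathlib

/-!
# Lattices over a domain and their base change to the fraction field
-/

set_option autoImplicit false

noncomputable section

namespace Fermat.Agent.ZDegI

open Module TensorProduct

variable {R K : Type*} [CommRing R] [IsDomain R] [Field K] [Algebra R K] [IsFractionRing R K]
  {Λ : Type*} [AddCommGroup Λ] [Module R Λ]

/-- ranks of a submodule and of the corresponding subspace agree. -/
theorem finrank_eq_of_iff (P : Submodule R Λ) (Q : Submodule K (K ⊗[R] Λ))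
    (h : ∀ x : Λ, (1 : K) ⊗ₜ[R] x ∈ Q ↔ x ∈ P) : finrank K Q = finrank R P := by
  let f : Λ →ₗ[R] K ⊗[R] Λ := TensorProduct.mk R K Λ 1
  have hf : IsLocalizedModule (nonZeroDivisors R) f :=
    (isLocalizedModule_iff_isBaseChange (nonZeroDivisors R) K f).mpr
      (TensorProduct.isBaseChange R Λ K)
  have hQ : Q = P.localized' K (nonZeroDivisors R) f := by
    ext y
    rw [Submodule.mem_localized']
    obtain ⟨⟨x, s⟩, hxs⟩ := IsLocalizedModule.mk'_surjective (nonZeroDivisors R) f y
    have hs : (s : R) • y = f x := by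
      rw [← hxs]
      exact IsLocalizedModule.mk'_cancel' f x s
    constructor
    · intro hy
      refine ⟨x, (h x).mp ?_, s, hxs⟩
      have : (1 : K) ⊗ₜ[R] x = (s : R) • y := hs.symm
      rw [this, ← algebraMap_smul K (s : R) y]
      exact Q.smul_mem _ hy
    · rintro ⟨m, hm, t, rfl⟩
      have h1 : f m ∈ Q := (h m).mpr hm
      have h2 : (t : R) • IsLocalizedModule.mk' f m t = f m := IsLocalizedModule.mk'_cancel' f m t
      have ht : algebraMap R K t ≠ 0 := by
        rw [ne_eq, FaithfulSMul.algebraMap_eq_zero_iff]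
        exact nonZeroDivisors.ne_zero t.2
      have h3 : IsLocalizedModule.mk' f m t = (algebraMap R K t)⁻¹ • f m := by
        rw [← h2, ← algebraMap_smul K (t : R) (IsLocalizedModule.mk' f m t), inv_smul_smul₀ ht]
      rw [h3]
      exact Q.smul_mem _ h1
  have h4 : finrank R (P.localized' K (nonZeroDivisors R) f) = finrank R P :=
    IsLocalizedModule.finrank_eq (M := P) (N := P.localized' K (nonZeroDivisors R) f)
      (nonZeroDivisors R) (P.toLocalized' K (nonZeroDivisors R) f) le_rfl
  rw [← h4, ← hQ]
  exact IsFractionRing.finrank_right_eq R K Q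

theorem one_tmul_eq_zero_iff [Module.IsTorsionFree R Λ] (x : Λ) :
    (1 : K) ⊗ₜ[R] x = 0 ↔ x = 0 := by
  let f : Λ →ₗ[R] K ⊗[R] Λ := TensorProduct.mk R K Λ 1
  have hf : IsLocalizedModule (nonZeroDivisors R) f :=
    (isLocalizedModule_iff_isBaseChange (nonZeroDivisors R) K f).mpr
      (TensorProduct.isBaseChange R Λ K)
  constructor
  · intro h
    obtain ⟨c, hc⟩ := (IsLocalizedModule.eq_zero_iff (nonZeroDivisors R) f).mp
      (show f x = 0 from h)
    have hc' : (c : R) • x = 0 := hc
    rcases smul_eq_zero.mp hc' with h1 | h1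
    · exact absurd h1 (nonZeroDivisors.ne_zero c.2)
    · exact h1
  · rintro rfl
    exact tmul_zero _ _

omit [IsDomain R] in
/-- base change of an injective map is injective -/
theorem baseChange_injective {Λ' : Type*} [AddCommGroup Λ'] [Module R Λ'] (f : Λ →ₗ[R] Λ')
    (hf : Function.Injective f) : Function.Injective (f.baseChange K) := by
  have : Module.Flat R K := IsLocalization.flat K (nonZeroDivisors R)
  have h := Module.Flat.lTensor_preserves_injective_linearMap (M := K) f hf
  intro x y hxy
  exact h hxy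

section Invol

variable {k V : Type*} [Field k] [CharZero k] [AddCommGroup V] [Module k V]
  [FiniteDimensional k V]

/-- trace of an involution -/
theorem trace_invol (f : V →ₗ[k] V) (hf : ∀ x, f (f x) = x) :
    LinearMap.trace k V f = (finrank k (LinearMap.ker (f - 1 : End k V)) : k) -
      finrank k (LinearMap.ker (f + 1 : End k V)) := by
  set P := LinearMap.ker (f - 1 : End k V) with hP
  set Q := LinearMap.ker (f + 1 : End k V) with hQ
  have memP : ∀ x, x ∈ P ↔ f x = x := by
    intro x
    rw [hP, LinearMap.mem_ker, LinearMap.sub_apply, Module.End.one_apply, sub_eq_zero]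
  have memQ : ∀ x, x ∈ Q ↔ f x = -x := by
    intro x
    rw [hQ, LinearMap.mem_ker, LinearMap.add_apply, Module.End.one_apply, add_eq_zero_iff_eq_neg]
  have h2 : (2 : k) ≠ 0 := two_ne_zero
  let e : V ≃ₗ[k] P × Q :=
    { toFun := fun x => (⟨(2 : k)⁻¹ • (x + f x), by
          rw [memP, map_smul, map_add, hf, add_comm]⟩,
        ⟨(2 : k)⁻¹ • (x - f x), by
          rw [memQ, map_smul, map_sub, hf, ← smul_neg, neg_sub]⟩)
      invFun := fun y => (y.1 : V) + y.2
      map_add' := fun x y => by
        refine Prod.ext (Subtype.ext ?_) (Subtype.ext ?_)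
        · show (2 : k)⁻¹ • (x + y + f (x + y)) = (2 : k)⁻¹ • (x + f x) + (2 : k)⁻¹ • (y + f y)
          rw [map_add, ← smul_add]; congr 1; abel
        · show (2 : k)⁻¹ • (x + y - f (x + y)) = (2 : k)⁻¹ • (x - f x) + (2 : k)⁻¹ • (y - f y)
          rw [map_add, ← smul_add]; congr 1; abel
      map_smul' := fun c x => by
        refine Prod.ext (Subtype.ext ?_) (Subtype.ext ?_)
        · show (2 : k)⁻¹ • (c • x + f (c • x)) = c • ((2 : k)⁻¹ • (x + f x))
          rw [map_smul, ← smul_add, smul_comm]
        · show (2 : k)⁻¹ • (c • x - f (c • x)) = c • ((2 : k)⁻¹ • (x - f x))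
          rw [map_smul, ← smul_sub, smul_comm]
      left_inv := fun x => by
        show (2 : k)⁻¹ • (x + f x) + (2 : k)⁻¹ • (x - f x) = x
        rw [← smul_add, add_add_sub_cancel, ← two_smul k, smul_smul, inv_mul_cancel₀ h2, one_smul]
      right_inv := fun y => by
        obtain ⟨⟨a, ha⟩, ⟨b, hb⟩⟩ := y
        rw [memP] at ha
        rw [memQ] at hb
        refine Prod.ext (Subtype.ext ?_) (Subtype.ext ?_)
        · show (2 : k)⁻¹ • (a + b + f (a + b)) = a
          rw [map_add, ha, hb, show a + b + (a + -b) = (2 : k) • a by rw [two_smul]; abel,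
            smul_smul, inv_mul_cancel₀ h2, one_smul]
        · show (2 : k)⁻¹ • (a + b - f (a + b)) = b
          rw [map_add, ha, hb, show a + b - (a + -b) = (2 : k) • b by rw [two_smul]; abel,
            smul_smul, inv_mul_cancel₀ h2, one_smul] }
  have h3 : LinearMap.trace k V f = LinearMap.trace k (P × Q)
      ((LinearMap.id : P →ₗ[k] P).prodMap (-LinearMap.id : Q →ₗ[k] Q)) := by
    refine ZRec.trace_congr e f _ fun x => ?_
    refine Prod.ext (Subtype.ext ?_) (Subtype.ext ?_)
    · show (2 : k)⁻¹ • (f x + f (f x)) = (2 : k)⁻¹ • (x + f x)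
      rw [hf, add_comm]
    · show (2 : k)⁻¹ • (f x - f (f x)) = -((2 : k)⁻¹ • (x - f x))
      rw [hf, ← smul_neg, neg_sub]
  rw [h3, LinearMap.trace_prodMap', map_neg, LinearMap.trace_id, LinearMap.trace_id]
  ring

end Invol

end Fermat.Agent.ZDegI
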