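import Fermat.Agent.ZDegI.Defs
import Fermat.Agent.ZDegI.Lat

/-!
# Eigenlattices and maps between them
-/

set_option autoImplicit false
set_option linter.unusedSectionVars false
set_option linter.style.haveILetI false

noncomputable section

open ModularCurve ModularCurve.Period CongruenceSubgroup AlgebraicCurve
open scoped TensorProduct

namespace Fermat.Agent.ZDegI

open Fermat.Agent.Tate Fermat.Agent.HeckeHom Fermat.Agent.TorsCmp Fermat.Agent.ZAL
open Fermat.Agent.X0Places

local notation "Qb" => AlgebraicClosure ℚ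

section HMaps

variable {M m m' : ℕ} [NeZero m] [NeZero m']

/-- up, as a Hecke map -/
def upH (h : m ∣ m') (hm' : m' ∣ M) : HMap M m m' where
  f := up Qb h
  comm l hl hlM x := by
    haveI : NeZero l := ⟨hl.ne_zero⟩
    exact up_hecke hl (fun h0 => hlM (h0.trans hm')) h x

/-- down, as a Hecke map -/
def dnH (h : m ∣ m') (hm' : m' ∣ M) : HMap M m' m where
  f := dn Qb h
  comm l hl hlM x := by
    haveI : NeZero l := ⟨hl.ne_zero⟩
    exact dn_hecke hl (fun h0 => hlM (h0.trans hm')) h x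

/-- `w_c`, as a Hecke map -/
def wH (hm : m ∣ M) {c : ℕ} (h : ExDiv c m) : HMap M m m where
  f := wP iotaQbar h
  comm l hl hlM x := by
    haveI : NeZero l := ⟨hl.ne_zero⟩
    exact wP_hecke iotaQbar hl (fun h0 => hlM (h0.trans hm)) h x

end HMaps

variable {p : ℕ} [Fact p.Prime] {M m m1 m2 m3 : ℕ} [NeZero m] [NeZero m1] [NeZero m2] [NeZero m3]

variable (p) in
/-- the Tate module as a plain type -/
def LM (m : ℕ) : Type := Lm p m

instance instGroupLM (m : ℕ) : AddCommGroup (LM p m) := inferInstanceAs (AddCommGroup (Lm p m))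

instance instModuleLM (m : ℕ) : Module ℤ_[p] (LM p m) := inferInstanceAs (Module ℤ_[p] (Lm p m))

instance finite_LM : Module.Finite ℤ_[p] (LM p m) :=
  inferInstanceAs (Module.Finite ℤ_[p] (Lm p m))

instance free_LM : Module.Free ℤ_[p] (LM p m) :=
  inferInstanceAs (Module.Free ℤ_[p] (Lm p m))

instance tf_LM : Module.IsTorsionFree ℤ_[p] (LM p m) := inferInstance

instance noeth_LM : IsNoetherian ℤ_[p] (LM p m) :=
  isNoetherian_of_isNoetherianRing_of_finite ℤ_[p] (LM p m)

/-- linear maps of plain types -/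
def toLM {m m1 : ℕ} (f : Lm p m →ₗ[ℤ_[p]] Lm p m1) : LM p m →ₗ[ℤ_[p]] LM p m1 where
  toFun x := f x
  map_add' x y := map_add f x y
  map_smul' a x := map_smul f a x

theorem toLM_apply {m m1 : ℕ} (f : Lm p m →ₗ[ℤ_[p]] Lm p m1) (x : LM p m) :
    toLM f x = f x := rfl

variable (p) in
/-- the eigenlattice -/
def Le (hm : m ∣ M) (e : TW.TPoly M ℤ_[p]) : Submodule ℤ_[p] (LM p m) where
  carrier := {x | act p hm e x = x}
  add_mem' := by
    intro x y h1 h2
    exact (map_add (act p hm e) x y).trans (congrArg₂ (fun a b : LM p m => a + b) h1 h2)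
  zero_mem' := map_zero (act p hm e)
  smul_mem' := by
    intro a x h1
    exact (map_smul (act p hm e) a x).trans (congrArg (fun b : LM p m => a • b) h1)

theorem mem_Le {hm : m ∣ M} {e : TW.TPoly M ℤ_[p]} {x : LM p m} :
    x ∈ Le p hm e ↔ act p hm e x = x := Iff.rfl

/-- the induced map on eigenlattices -/
def indE (hm : m ∣ M) (hm1 : m1 ∣ M) (e : TW.TPoly M ℤ_[p]) (u : HMap M m m1) :
    Le p hm e →ₗ[ℤ_[p]] Le p hm1 e :=
  (toLM (indM p u.f)).restrict (fun x hx => by
    have key : ∀ z : Lm p m, act p hm e z = z → act p hm1 e (indM p u.f z) = indM p u.f z := by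
      intro z hz
      rw [act_eq_TE, ← indM_TE hm hm1, ← act_eq_TE, hz]
    exact key x hx)

theorem coe_indE (hm : m ∣ M) (hm1 : m1 ∣ M) (e : TW.TPoly M ℤ_[p]) (u : HMap M m m1)
    (x : Le p hm e) : (indE hm hm1 e u x : LM p m1) = toLM (indM p u.f) (x : LM p m) := rfl

variable (p) in
/-- the eigenspace -/
abbrev VV (hm : m ∣ M) (e : TW.TPoly M ℤ_[p]) : Type := ℚ_[p] ⊗[ℤ_[p]] Le p hm e

/-- the induced map on eigenspaces -/
def indV (hm : m ∣ M) (hm1 : m1 ∣ M) (e : TW.TPoly M ℤ_[p]) (u : HMap M m m1) :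
    VV p hm e →ₗ[ℚ_[p]] VV p hm1 e := (indE hm hm1 e u).baseChange ℚ_[p]

variable (hm : m ∣ M) (hm1 : m1 ∣ M) (hm2 : m2 ∣ M) (hm3 : m3 ∣ M) (e : TW.TPoly M ℤ_[p])

theorem indV_rel2 (u : HMap M m m1) (v : HMap M m1 m3) (u' : HMap M m m2) (v' : HMap M m2 m3)
    (h : ∀ x, v.f (u.f x) = v'.f (u'.f x)) (x : VV p hm e) :
    indV hm1 hm3 e v (indV hm hm1 e u x) = indV hm2 hm3 e v' (indV hm hm2 e u' x) := by
  have h1 : (indE hm1 hm3 e v) ∘ₗ (indE hm hm1 e u) =
      (indE hm2 hm3 e v') ∘ₗ (indE hm hm2 e u') := by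
    have key : ∀ z : Lm p m, indM p v.f (indM p u.f z) = indM p v'.f (indM p u'.f z) := by
      intro z
      rw [indM_comp, indM_comp]
      exact indM_congr p h _
    exact LinearMap.ext fun y => Subtype.ext (key y.1)
  have h2 := congrArg (LinearMap.baseChange ℚ_[p]) h1
  rw [LinearMap.baseChange_comp, LinearMap.baseChange_comp] at h2
  exact LinearMap.congr_fun h2 x

theorem indV_rel1 (u : HMap M m m1) (v : HMap M m1 m3) (u' : HMap M m m3)
    (h : ∀ x, v.f (u.f x) = u'.f x) (x : VV p hm e) :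
    indV hm1 hm3 e v (indV hm hm1 e u x) = indV hm hm3 e u' x := by
  have h1 : (indE hm1 hm3 e v) ∘ₗ (indE hm hm1 e u) = indE hm hm3 e u' := by
    have key : ∀ z : Lm p m, indM p v.f (indM p u.f z) = indM p u'.f z := by
      intro z
      rw [indM_comp]
      exact indM_congr p h _
    exact LinearMap.ext fun y => Subtype.ext (key y.1)
  have h2 := congrArg (LinearMap.baseChange ℚ_[p]) h1
  rw [LinearMap.baseChange_comp] at h2
  exact LinearMap.congr_fun h2 x

theorem indV_id (u : HMap M m m) (h : ∀ x, u.f x = x) : indV hm hm e u = LinearMap.id := by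
  have h1 : indE hm hm e u = LinearMap.id := by
    have key : ∀ z : Lm p m, indM p u.f z = z := by
      intro z
      rw [indM_congr p (v := AddMonoidHom.id _) h, indM_id]
    exact LinearMap.ext fun y => Subtype.ext (key y.1)
  rw [indV, h1, LinearMap.baseChange_id]

theorem indV_smul (u : HMap M m m1) (v : HMap M m1 m) (k : ℕ) (h : ∀ x, v.f (u.f x) = k • x)
    (x : VV p hm e) : indV hm1 hm e v (indV hm hm1 e u x) = (k : ℚ_[p]) • x := by
  have h1 : (indE hm1 hm e v) ∘ₗ (indE hm hm1 e u) = (k : ℤ_[p]) • LinearMap.id := by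
    have key : ∀ z : Lm p m, indM p v.f (indM p u.f z) = (k : ℤ_[p]) • z := by
      intro z
      rw [indM_comp]
      exact indM_nsmul p k h _
    exact LinearMap.ext fun y => Subtype.ext (key y.1)
  have h2 := congrArg (LinearMap.baseChange ℚ_[p]) h1
  rw [LinearMap.baseChange_comp, LinearMap.baseChange_smul, LinearMap.baseChange_id] at h2
  have h3 := LinearMap.congr_fun h2 x
  refine h3.trans ?_
  rw [LinearMap.smul_apply, LinearMap.id_apply, ← algebraMap_smul ℚ_[p] (k : ℤ_[p]), map_natCast]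

/-- the injectivity of `T_a ^ 2 - (a + 1) ^ 2` -/
theorem indV_inj (T : HMap M m m) {a : ℕ} (ha : a.Prime) (ham : ¬ a ∣ m)
    (hT : ∀ x, T.f x = heckeOperatorBar m ⟨a, ha⟩ x) (x : VV p hm e)
    (h : indV hm hm e T (indV hm hm e T x) = ((a : ℚ_[p]) + 1) ^ 2 • x)
    (hinj : ∀ φ : Lm p m, heckeHom ha ham ℤ_[p] (heckeHom ha ham ℤ_[p] φ.1) =
      ((a : ℤ_[p]) + 1) ^ 2 • φ.1 → φ = 0) : x = 0 := by
  set f : Le p hm e →ₗ[ℤ_[p]] Le p hm e :=
    (indE hm hm e T) ∘ₗ (indE hm hm e T) -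
      (((a : ℤ_[p]) + 1) ^ 2) • (LinearMap.id : Le p hm e →ₗ[ℤ_[p]] Le p hm e) with hf
  have h1 : Function.Injective f := by
    rw [injective_iff_map_eq_zero]
    intro y hy
    have h3 : indE hm hm e T (indE hm hm e T y) - (((a : ℤ_[p]) + 1) ^ 2) • y = 0 := hy
    have h2 := congrArg Subtype.val (sub_eq_zero.mp h3)
    have h4 : ∀ z : Lm p m, indM p T.f z = parHecke ℤ_[p] ℤ_[p] ha ham z := by
      intro z
      rw [← indM_hecke]
      exact indM_congr p hT z
    have key : ∀ z : Lm p m, indM p T.f (indM p T.f z) = ((a : ℤ_[p]) + 1) ^ 2 • z → z = 0 := by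
      intro z hz
      rw [h4, h4] at hz
      exact hinj _ (congrArg Subtype.val hz)
    exact Subtype.ext (key y.1 h2)
  have h5 := baseChange_injective (K := ℚ_[p]) f h1
  apply h5
  rw [map_zero, hf]
  have h6 : ((indE hm hm e T) ∘ₗ (indE hm hm e T) -
      (((a : ℤ_[p]) + 1) ^ 2) • (LinearMap.id : Le p hm e →ₗ[ℤ_[p]] Le p hm e)).baseChange
        ℚ_[p] x =
      indV hm hm e T (indV hm hm e T x) - (((a : ℤ_[p]) + 1) ^ 2) • x := by
    rw [LinearMap.baseChange_sub, LinearMap.baseChange_comp, LinearMap.baseChange_smul,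
      LinearMap.baseChange_id]
    rfl
  rw [h6, h, ← algebraMap_smul ℚ_[p] (((a : ℤ_[p]) + 1) ^ 2)]
  have h7 : algebraMap ℤ_[p] ℚ_[p] (((a : ℤ_[p]) + 1) ^ 2) = ((a : ℚ_[p]) + 1) ^ 2 := by
    rw [map_pow, map_add, map_natCast, map_one]
  rw [h7, sub_self]

end Fermat.Agent.ZDegI
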