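import Fermat.Agent.Tate.JInput
import Fermat.Agent.TW.Poly
import Fermat.Agent.TW.Hecke

/-!
# Maps between Tate modules (as modules of parabolic homomorphisms) of Jacobians `J₀(m)`
-/

set_option autoImplicit false

noncomputable section

namespace Fermat.Agent.ZDegI

open ModularCurve ModularCurve.Period CongruenceSubgroup
open Fermat.Agent.Tate Fermat.Agent.HeckeHom Fermat.Agent.TorsCmp

section Gen

variable {p : ℕ} [Fact p.Prime] {J Γ J' Γ' : Type*} [AddCommGroup J] [Group Γ]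
  [AddCommGroup J'] [Group Γ']
  (C : Comparison p J Γ) (Λ : Submodule ℤ_[p] (Additive Γ →+ ℤ_[p]))
  (hΛ : ∀ φ, φ ∈ Λ ↔ ∀ n, red n φ ∈ Set.range (C.e n))
  (C' : Comparison p J' Γ') (Λ' : Submodule ℤ_[p] (Additive Γ' →+ ℤ_[p]))
  (hΛ' : ∀ φ, φ ∈ Λ' ↔ ∀ n, red n φ ∈ Set.range (C'.e n))

theorem exists_ind2 (u : J →+ J') (φ : Λ) :
    ∃ ψ : Λ', ∀ n, (pr C' Λ' hΛ' n ψ : J') = u (pr C Λ hΛ n φ) := by
  obtain ⟨ψ, hψ⟩ := exists_lim C' Λ' hΛ'
    (fun n => ⟨u (pr C Λ hΛ n φ), map_mem_tor p u (pr C Λ hΛ n φ).2⟩) (fun n =>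
    Subtype.ext (by
      change p • u (pr C Λ hΛ (n + 1) φ : J) = u (pr C Λ hΛ n φ)
      rw [← map_nsmul, p_smul_pr]))
  exact ⟨ψ, fun n => congrArg Subtype.val (hψ n)⟩

/-- An additive map `J → J'` induces a `ℤ_p`-linear map `Λ → Λ'`. -/
def ind2 (u : J →+ J') : Λ →ₗ[ℤ_[p]] Λ' where
  toFun φ := (exists_ind2 C Λ hΛ C' Λ' hΛ' u φ).choose
  map_add' φ ψ := by
    refine ext_pr C' Λ' hΛ' fun n => ?_
    rw [(exists_ind2 C Λ hΛ C' Λ' hΛ' u (φ + ψ)).choose_spec, map_add, map_add,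
      AddSubgroup.coe_add, map_add, AddSubgroup.coe_add,
      (exists_ind2 C Λ hΛ C' Λ' hΛ' u φ).choose_spec,
      (exists_ind2 C Λ hΛ C' Λ' hΛ' u ψ).choose_spec]
  map_smul' a φ := by
    refine ext_pr C' Λ' hΛ' fun n => ?_
    rw [(exists_ind2 C Λ hΛ C' Λ' hΛ' u (a • φ)).choose_spec, RingHom.id_apply, pr_smul, pr_smul,
      AddSubgroup.coe_nsmul, map_nsmul, AddSubgroup.coe_nsmul,
      (exists_ind2 C Λ hΛ C' Λ' hΛ' u φ).choose_spec]

theorem pr_ind2 (u : J →+ J') (n : ℕ) (φ : Λ) :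
    (pr C' Λ' hΛ' n (ind2 C Λ hΛ C' Λ' hΛ' u φ) : J') = u (pr C Λ hΛ n φ) :=
  (exists_ind2 C Λ hΛ C' Λ' hΛ' u φ).choose_spec n

end Gen

section J0

variable (p : ℕ) [Fact p.Prime]

/-- the Tate module of `J₀(m)`, as a module of homomorphisms -/
abbrev Lm (m : ℕ) : Submodule ℤ_[p] (Additive (Gamma0 m) →+ ℤ_[p]) :=
  parabolicHoms ℤ_[p] (Gamma0 m) ℤ_[p]

/-- the components -/
def pj (m : ℕ) [NeZero m] (n : ℕ) : Lm p m →+ tor p (JZero m) n :=
  pr (comparisonJ m p) _ (comparisonJ_mem_iff m p) n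

theorem ext_pj {m : ℕ} [NeZero m] {φ ψ : Lm p m}
    (h : ∀ n, (pj p m n φ : JZero m) = pj p m n ψ) : φ = ψ :=
  ext_pr (comparisonJ m p) _ (comparisonJ_mem_iff m p) h

variable {m m' m'' : ℕ} [NeZero m] [NeZero m'] [NeZero m'']

/-- the induced map -/
def indM (u : JZero m →+ JZero m') : Lm p m →ₗ[ℤ_[p]] Lm p m' :=
  ind2 (comparisonJ m p) _ (comparisonJ_mem_iff m p) (comparisonJ m' p) _
    (comparisonJ_mem_iff m' p) u

theorem pj_indM (u : JZero m →+ JZero m') (n : ℕ) (φ : Lm p m) :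
    (pj p m' n (indM p u φ) : JZero m') = u (pj p m n φ) :=
  pr_ind2 _ _ _ _ _ _ u n φ

theorem indM_comp (v : JZero m' →+ JZero m'') (u : JZero m →+ JZero m') (φ : Lm p m) :
    indM p v (indM p u φ) = indM p (v.comp u) φ := by
  refine ext_pj p fun n => ?_
  rw [pj_indM, pj_indM, pj_indM, AddMonoidHom.comp_apply]

theorem indM_congr {u v : JZero m →+ JZero m'} (h : ∀ x, u x = v x) (φ : Lm p m) :
    indM p u φ = indM p v φ := by
  rw [AddMonoidHom.ext h]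

theorem indM_id (φ : Lm p m) : indM p (AddMonoidHom.id (JZero m)) φ = φ := by
  refine ext_pj p fun n => ?_
  rw [pj_indM, AddMonoidHom.id_apply]

theorem indM_nsmul (k : ℕ) {u : JZero m →+ JZero m} (h : ∀ x, u x = k • x) (φ : Lm p m) :
    indM p u φ = (k : ℤ_[p]) • φ := by
  refine ext_pj p fun n => ?_
  have h1 : (k : ℤ_[p]) • φ = k • φ := Nat.cast_smul_eq_nsmul _ k φ
  rw [pj_indM, h, h1, map_nsmul, AddSubgroup.coe_nsmul]

theorem indM_hecke {l : ℕ} (hl : l.Prime) (hlm : ¬ l ∣ m) (φ : Lm p m) :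
    indM p ((heckeOperatorBar m ⟨l, hl⟩).toAddMonoidHom) φ =
      parHecke ℤ_[p] ℤ_[p] hl hlm φ := by
  refine ext_pj p fun n => ?_
  rw [pj_indM]
  have h : pj p m n (parHecke ℤ_[p] ℤ_[p] hl hlm φ) =
      ⟨heckeOperatorBar m ⟨l, hl⟩ (pj p m n φ),
        map_mem_tor p ((heckeOperatorBar m ⟨l, hl⟩).toAddMonoidHom) (pj p m n φ).2⟩ := by
    refine (pr_eq_iff (comparisonJ m p) _ (comparisonJ_mem_iff m p) n _ _).mpr ?_
    rw [comparisonJ_hecke m p hl hlm n (pj p m n φ) _ rfl]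
    have h1 : (comparisonJ m p).e n (pj p m n φ) = red n φ :=
      e_pr (comparisonJ m p) _ (comparisonJ_mem_iff m p) n φ
    rw [h1]
    exact heckeHom_comp hl hlm ((PadicInt.toZModPow n : ℤ_[p] →+* ZMod (p ^ n)) :
      ℤ_[p] →+ ZMod (p ^ n)) _
  rw [h]
  rfl

end J0

section Poly

variable (p : ℕ) [Fact p.Prime] {M m : ℕ} [NeZero m]

/-- Hecke operators commute -/
theorem parHecke_comm {l l' : ℕ} (hl : l.Prime) (hlm : ¬ l ∣ m) (hl' : l'.Prime)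
    (hlm' : ¬ l' ∣ m) :
    parHecke ℤ_[p] ℤ_[p] hl hlm * parHecke ℤ_[p] ℤ_[p] hl' hlm' =
      (parHecke ℤ_[p] ℤ_[p] hl' hlm' * parHecke ℤ_[p] ℤ_[p] hl hlm :
        Module.End ℤ_[p] (Lm p m)) := by
  have hS : ∀ q : ℕ, q.Prime → q ∣ m → q ∈ {q : ℕ | q ∣ m} := fun q _ h => h
  have h1 := theta_T (es m) hS ℤ_[p] hl hlm hlm
  have h2 := theta_T (es m) hS ℤ_[p] hl' hlm' hlm'
  rw [← h1, ← h2, ← map_mul, ← map_mul, mul_comm]

/-- the family of Hecke operators at primes not dividing `M` -/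
def heckeFam (hm : m ∣ M) (l : TW.Pr M) : Module.End ℤ_[p] (Lm p m) :=
  parHecke ℤ_[p] ℤ_[p] l.2.1 (fun h => l.2.2 (h.trans hm))

/-- the action of a polynomial in the Hecke operators -/
def TE (hm : m ∣ M) (e : TW.TPoly M ℤ_[p]) : Module.End ℤ_[p] (Lm p m) :=
  TW.polyEnd (H := Lm p m) (heckeFam p hm) (fun _ _ => parHecke_comm p _ _ _ _) e

variable {p}

/-- a map of Jacobians commuting with the Hecke operators -/
structure HMap (M m m' : ℕ) [NeZero m] [NeZero m'] where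
  /-- the map -/
  f : JZero m →+ JZero m'
  comm : ∀ (l : ℕ) (hl : l.Prime), ¬ l ∣ M → ∀ x,
    f (heckeOperatorBar m ⟨l, hl⟩ x) = heckeOperatorBar m' ⟨l, hl⟩ (f x)

variable {m' : ℕ} [NeZero m']

theorem indM_TE (hm : m ∣ M) (hm' : m' ∣ M) (u : HMap M m m') (e : TW.TPoly M ℤ_[p])
    (x : Lm p m) : indM p u.f (TE p hm e x) = TE p hm' e (indM p u.f x) := by
  refine TW.polyEnd_map (H := Lm p m) (H' := Lm p m') _ _ _ _ (indM p u.f) (fun l y => ?_) e x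
  rw [heckeFam, heckeFam, ← indM_hecke, ← indM_hecke, indM_comp, indM_comp]
  exact indM_congr p (fun z => u.comm l l.2.1 l.2.2 z) y

end Poly

end Fermat.Agent.ZDegI
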