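import Fermat.Agent.ZAL.Wd
import Mathlib.Data.Nat.Squarefree

/-!
# Levels attached to sets of primes
-/

set_option autoImplicit false

namespace Fermat.Agent.ZDegI

open Fermat.Agent.ZAL

/-- the level -/
def lev (M : ℕ) (s : Finset ℕ) : ℕ := ∏ q ∈ s ∩ M.primeFactors, q

instance (M : ℕ) (s : Finset ℕ) : NeZero (lev M s) :=
  ⟨Finset.prod_ne_zero_iff.mpr fun _ hq =>
    (Nat.prime_of_mem_primeFactors (Finset.mem_inter.mp hq).2).ne_zero⟩

theorem lev_dvd (M : ℕ) (s : Finset ℕ) : lev M s ∣ M :=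
  (Finset.prod_dvd_prod_of_subset _ _ _ Finset.inter_subset_right).trans
    (Nat.prod_primeFactors_dvd M)

theorem lev_eq {M : ℕ} {s : Finset ℕ} (hs : s ⊆ M.primeFactors) : lev M s = ∏ q ∈ s, q := by
  rw [lev, Finset.inter_eq_left.mpr hs]

theorem lev_mono (M : ℕ) {s t : Finset ℕ} (h : s ⊆ t) : lev M s ∣ lev M t :=
  Finset.prod_dvd_prod_of_subset _ _ _ (Finset.inter_subset_inter_right h)

theorem lev_insert {M : ℕ} {s : Finset ℕ} (hs : s ⊆ M.primeFactors) {a : ℕ}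
    (ha : a ∈ M.primeFactors) (has : a ∉ s) : lev M (insert a s) = lev M s * a := by
  rw [lev_eq hs, lev_eq (Finset.insert_subset ha hs), Finset.prod_insert has, mul_comm]

theorem lev_of_dvd {M N : ℕ} (hM : Squarefree M) (hN : N ∣ M) (hM0 : M ≠ 0) :
    lev M N.primeFactors = N := by
  rw [lev_eq (Nat.primeFactors_mono hN hM0)]
  exact Nat.prod_primeFactors_of_squarefree (hM.squarefree_of_dvd hN)

theorem dvd_lev_iff {M : ℕ} {s : Finset ℕ} (hs : s ⊆ M.primeFactors) {a : ℕ} (ha : a.Prime) :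
    a ∣ lev M s ↔ a ∈ s := by
  rw [lev_eq hs]
  constructor
  · intro h
    obtain ⟨q, hq, h1⟩ := (Prime.dvd_finsetProd_iff ha.prime _).mp h
    have h2 := (Nat.prime_dvd_prime_iff_eq ha (Nat.prime_of_mem_primeFactors (hs hq))).mp h1
    rwa [h2]
  · intro h
    exact Finset.dvd_prod_of_mem (fun q => q) h

theorem exDiv_of_dvd {m d : ℕ} (hm : Squarefree m) (h : d ∣ m) : ExDiv d m where
  dvd := h
  cop := by
    apply Nat.coprime_of_squarefree_mul
    rwa [Nat.mul_div_cancel' h]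

theorem prod_dvd_lev {M : ℕ} {s : Finset ℕ} (hs : s ⊆ M.primeFactors) {D : Finset ℕ}
    (hD : D ⊆ s) : ∏ q ∈ D, q ∣ lev M s := by
  rw [lev_eq hs]
  exact Finset.prod_dvd_prod_of_subset _ _ _ hD

end Fermat.Agent.ZDegI
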