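import Fermat.Agent.ZAL.THecke
import Fermat.Agent.Degen.HeckeEq
import Fermat.Agent.TorsCmp.Final

/-!
# Relations between degeneracy maps, Atkin–Lehner involutions and Hecke operators
-/

set_option autoImplicit false
set_option linter.unusedSectionVars false
set_option linter.style.haveILetI false

noncomputable section

open ModularCurve AlgebraicCurve

namespace Fermat.Agent.ZDegI

open Fermat.Agent.X0Places Fermat.Agent.FunField Fermat.Agent.FunField.PlaceLemmas
open Fermat.Agent.TorsCmp Fermat.Agent.ZAL Fermat.Agent.Degen Fermat.Agent.HeckeRed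
open AlgebraicCurve.SemilinearAut
open scoped Pointwise

section Equiv

variable {K F : Type*} [Field K] [IsAlgClosed K] [Field F] [Algebra K F] [IsFF K F]

theorem ramificationIndexAlong_equiv (e : F ≃ₐ[K] F) (w : Place K F) :
    Place.ramificationIndexAlong e.toAlgHom w = 1 := by
  obtain ⟨f, hf0, hf⟩ := exists_ord_one w
  have h1 := ord_res e.toAlgHom w (e.symm f)
  have h2 : e.toAlgHom (e.symm f) = f := e.apply_symm_apply f
  rw [h2, hf] at h1
  have h3 : (Place.ramificationIndexAlong e.toAlgHom w : ℤ) ∣ 1 := ⟨_, h1⟩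
  have h4 := Int.natAbs_dvd_natAbs.mpr h3
  simpa using h4

theorem smul_inv_place_eq_res (e : F ≃ₐ[K] F) (w : Place K F) :
    (ofAlgAut e : SemilinearAut K F)⁻¹ • w = res e.toAlgHom w := by
  apply place_ext
  intro f
  show f ∈ ((ofAlgAut e : SemilinearAut K F)⁻¹ • w.toValuationSubring : ValuationSubring F) ↔ _
  rw [ValuationSubring.mem_inv_pointwise_smul_iff]
  rfl

theorem pull_equiv_eq_smul (e : F ≃ₐ[K] F) (D : Divisor K F) :
    pull e.toAlgHom D = (ofAlgAut e : SemilinearAut K F) • D := by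
  ext w
  rw [pull_apply, ramificationIndexAlong_equiv, divisor_smul_apply, smul_inv_place_eq_res]
  simp

theorem pullPic_equiv_eq_smul (e : F ≃ₐ[K] F) (x : Pic0 K F) :
    pullPic e.toAlgHom x = (ofAlgAut e : SemilinearAut K F) • x := by
  obtain ⟨D, rfl⟩ := Pic0.mk_surjective x
  exact congrArg Pic0.mk (Subtype.ext (pull_equiv_eq_smul e D))

end Equiv

/-! ### the symmetric difference of divisors -/

theorem star_star_mul {k c d : ℕ} (hk : 0 < k) (hcd : Nat.Coprime c d) :
    ZAL.star (ZAL.star k d) c = ZAL.star k (c * d) := by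
  have e0 : Nat.gcd k (c * d) = Nat.gcd k c * Nat.gcd k d := hcd.gcd_mul k
  set gc := Nat.gcd k c with hgc
  set gd := Nat.gcd k d with hgd
  have hgc0 : 0 < gc := Nat.gcd_pos_of_pos_left _ hk
  have hgd0 : 0 < gd := Nat.gcd_pos_of_pos_left _ hk
  obtain ⟨c', hc'⟩ : gc ∣ c := Nat.gcd_dvd_right k c
  obtain ⟨d', hd'⟩ : gd ∣ d := Nat.gcd_dvd_right k d
  obtain ⟨k', hk'⟩ : gc * gd ∣ k := by rw [← e0]; exact Nat.gcd_dvd_left _ _
  have h1 : Nat.gcd (gd * k') c' = 1 := by
    have h2 : Nat.gcd (gc * (gd * k')) (gc * c') = gc * 1 := by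
      rw [mul_one, ← mul_assoc, ← hk', ← hc']
    rw [Nat.gcd_mul_left] at h2
    exact Nat.eq_of_mul_eq_mul_left hgc0 h2
  have h3 : Nat.Coprime d' c := (Nat.Coprime.coprime_dvd_left (Dvd.intro_left gd hd'.symm) hcd.symm)
  have e1 : k / gd = gc * k' := by
    rw [hk', mul_comm gc gd, mul_assoc, Nat.mul_div_cancel_left _ hgd0]
  have e2 : d / gd = d' := by
    conv_lhs => rw [hd']
    exact Nat.mul_div_cancel_left _ hgd0
  have e3 : c / gc = c' := by
    conv_lhs => rw [hc']
    exact Nat.mul_div_cancel_left _ hgc0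
  have e4 : ZAL.star k d = gc * k' * d' := by rw [ZAL.star, ← hgd, e1, e2]
  have e5 : Nat.gcd (gc * k' * d') c = gc := by
    rw [Nat.Coprime.gcd_mul_right_cancel _ h3]
    conv_lhs => rw [hc']
    rw [Nat.gcd_mul_left]
    have h4 : Nat.gcd k' c' = 1 := Nat.Coprime.coprime_dvd_left (Dvd.intro_left gd rfl) h1
    rw [h4, mul_one]
  rw [e4, ZAL.star, e5, e3, ZAL.star, e0]
  have e6 : gc * k' * d' / gc = k' * d' := by
    rw [mul_assoc, Nat.mul_div_cancel_left _ hgc0]
  have e7 : k / (gc * gd) = k' := by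
    conv_lhs => rw [hk']
    exact Nat.mul_div_cancel_left _ (Nat.mul_pos hgc0 hgd0)
  have e8 : c * d / (gc * gd) = c' * d' := by
    have : c * d = gc * gd * (c' * d') := by
      rw [mul_mul_mul_comm, ← hc', ← hd']
    rw [this, Nat.mul_div_cancel_left _ (Nat.mul_pos hgc0 hgd0)]
  rw [e6, e7, e8]
  ring

theorem star_of_not_dvd {k a : ℕ} (ha : a.Prime) (hk : ¬ a ∣ k) : ZAL.star k a = a * k := by
  have h : Nat.gcd k a = 1 := ((Nat.Prime.coprime_iff_not_dvd ha).mpr hk).symm
  rw [ZAL.star, h, Nat.div_one, Nat.div_one, mul_comm]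

/-! ### inclusions -/

variable {L : Type*} [Field L] [Algebra ℚ L]

theorem ff_le {m m' : ℕ} [NeZero m] [NeZero m'] (h : m ∣ m') : FF L m ≤ FF L m' := by
  have h1 := HeckeRed.laurentBaseChange_full L m
  have h2 := HeckeRed.laurentBaseChange_full L m'
  exact h1.le.trans ((full_degeneracyC_le L h).trans h2.ge)

/-- inclusion of function fields -/
def incl (L : Type*) [Field L] [Algebra ℚ L] {m m' : ℕ} [NeZero m] [NeZero m'] (h : m ∣ m') :
    FF L m →ₐ[L] FF L m' :=
  dg 1 (fun x hx => by rw [qExpand_one_apply]; exact ff_le h hx)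

@[simp] theorem coe_incl {m m' : ℕ} [NeZero m] [NeZero m'] (h : m ∣ m') (x : FF L m) :
    (incl L h x : LaurentSeries L) = x :=
  (coe_dg 1 _ x).trans (qExpand_one_apply _)

theorem coe_incl' {m m' : ℕ} [NeZero m] [NeZero m'] (h : m ∣ m') (x : FF L m) :
    (incl L h x : LaurentSeries L) = qExpand L 1 (x : LaurentSeries L) := by
  rw [coe_incl, qExpand_one_apply]

theorem incl_comp {m m' m'' : ℕ} [NeZero m] [NeZero m'] [NeZero m''] (h : m ∣ m') (h' : m' ∣ m'')
    (h'' : m ∣ m'') : (incl L h' : FF L m' →ₐ[L] FF L m'').comp (incl L h) = incl L h'' :=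
  AlgHom.ext fun x => Subtype.ext (by
    rw [AlgHom.comp_apply, coe_incl, coe_incl, coe_incl])

theorem incl_jdF {m m' : ℕ} [NeZero m] [NeZero m'] (h : m ∣ m') (k : ℕ) [NeZero k] (hk : k ∣ m) :
    incl L h (jdF L m k hk) = jdF L m' k (hk.trans h) := Subtype.ext (by
      rw [coe_incl, jdF, jdF])

variable (ι : L →+* ℂ)

theorem wF_incl {m m' c : ℕ} [NeZero m] [NeZero m'] (h : m ∣ m') (hc : ExDiv c m)
    (hc' : ExDiv c m') (x : FF L m) : wF ι hc' (incl L h x) = incl L h (wF ι hc x) := by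
  have h1 : (wF ι hc' : FF L m' →+* FF L m').comp (incl L h : FF L m →+* FF L m') =
      (incl L h : FF L m →+* FF L m').comp (wF ι hc : FF L m →+* FF L m) := by
    apply ff_ringHom_ext_gen
    · intro a
      show wF ι hc' (incl L h (algebraMap L (FF L m) a)) = incl L h (wF ι hc (algebraMap L (FF L m) a))
      rw [AlgHom.commutes, AlgEquiv.commutes, AlgEquiv.commutes, AlgHom.commutes]
    · intro k _ hk
      have h2 : NeZero (ZAL.star k c) := ⟨(star_pos (Nat.pos_of_ne_zero (NeZero.ne k))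
        (Nat.pos_of_ne_zero hc.ne_zero)).ne'⟩
      show wF ι hc' (incl L h (jdF L m k hk)) = incl L h (wF ι hc (jdF L m k hk))
      rw [incl_jdF, wF_jdF, wF_jdF, incl_jdF]
  exact RingHom.congr_fun h1 x

theorem wF_mul {m c d : ℕ} [NeZero m] (hcd : Nat.Coprime c d) (hc : ExDiv c m) (hd : ExDiv d m)
    (h : ExDiv (c * d) m) (x : FF L m) : wF ι h x = wF ι hc (wF ι hd x) := by
  have h1 : (wF ι h : FF L m →+* FF L m) =
      (wF ι hc : FF L m →+* FF L m).comp (wF ι hd : FF L m →+* FF L m) := by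
    apply ff_ringHom_ext_gen
    · intro a
      show wF ι h (algebraMap L (FF L m) a) = wF ι hc (wF ι hd (algebraMap L (FF L m) a))
      rw [AlgEquiv.commutes, AlgEquiv.commutes, AlgEquiv.commutes]
    · intro k _ hk
      have hk0 : 0 < k := Nat.pos_of_ne_zero (NeZero.ne k)
      have hc0 : 0 < c := Nat.pos_of_ne_zero hc.ne_zero
      have hd0 : 0 < d := Nat.pos_of_ne_zero hd.ne_zero
      have h2 : NeZero (ZAL.star k d) := ⟨(star_pos hk0 hd0).ne'⟩
      have h3 : NeZero (star (ZAL.star k d) c) :=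
        ⟨(star_pos (Nat.pos_of_ne_zero h2.out) hc0).ne'⟩
      have h4 : NeZero (ZAL.star k (c * d)) := ⟨(star_pos hk0 (Nat.mul_pos hc0 hd0)).ne'⟩
      show wF ι h (jdF L m k hk) = wF ι hc (wF ι hd (jdF L m k hk))
      rw [wF_jdF, wF_jdF, wF_jdF]
      exact jdF_congr (star_star_mul hk0 hcd).symm _ _
  exact RingHom.congr_fun h1 x

/-- `w_a ∘ α = β` -/
theorem wF_incl_beta {m a : ℕ} [NeZero m] [NeZero a] (ha : a.Prime) (ham : ¬ a ∣ m)
    (h : m ∣ m * a) (haw : ExDiv a (m * a)) (x : FF L m) :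
    wF ι haw (incl L h x) = heckeBetaBar L m a x := by
  have h1 : (wF ι haw : FF L (m * a) →+* FF L (m * a)).comp (incl L h : FF L m →+* FF L (m * a)) =
      (heckeBetaBar L m a : FF L m →+* FF L (m * a)) := by
    apply ff_ringHom_ext_gen
    · intro b
      show wF ι haw (incl L h (algebraMap L (FF L m) b)) = heckeBetaBar L m a (algebraMap L (FF L m) b)
      rw [AlgHom.commutes, AlgEquiv.commutes, AlgHom.commutes]
    · intro k _ hk
      have hk0 : 0 < k := Nat.pos_of_ne_zero (NeZero.ne k)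
      have h2 : NeZero (ZAL.star k a) := ⟨(star_pos hk0 ha.pos).ne'⟩
      have h3 : NeZero (a * k) := ⟨(Nat.mul_pos ha.pos hk0).ne'⟩
      have d1 : a * k ∣ m * a := by rw [mul_comm]; exact Nat.mul_dvd_mul_right hk a
      show wF ι haw (incl L h (jdF L m k hk)) = heckeBetaBar L m a (jdF L m k hk)
      rw [incl_jdF, wF_jdF, beta_jdF m a k hk d1]
      exact jdF_congr (star_of_not_dvd ha fun h0 => ham (h0.trans hk)) _ _
  exact RingHom.congr_fun h1 x

end Fermat.Agent.ZDegI
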