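import Fermat.Agent.ZDegI.Eig
import Fermat.Agent.ZDegI.Lev
import Fermat.Agent.ZRec.Rec
import Fermat.Agent.ZTqb.Inj

/-!
# The degeneracy system of the Tate modules of `J₀(m)`, `m ∣ M`
-/

set_option autoImplicit false
set_option linter.unusedSectionVars false
set_option linter.style.haveILetI false

noncomputable section

open ModularCurve ModularCurve.Period CongruenceSubgroup AlgebraicCurve
open scoped TensorProduct

namespace Fermat.Agent.ZDegI

open Fermat.Agent.Tate Fermat.Agent.HeckeHom Fermat.Agent.TorsCmp Fermat.Agent.ZAL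
open Fermat.Agent.X0Places

local notation "Qb" => AlgebraicClosure ℚ

variable (p : ℕ) [Fact p.Prime] {M : ℕ} (e : TW.TPoly M ℤ_[p])

/-- the spaces -/
abbrev VS (s : Finset ℕ) : Type := VV p (lev_dvd M s) e

/-- `w_c` -/
def wS' (s : Finset ℕ) (c : ℕ) : VS p e s →ₗ[ℚ_[p]] VS p e s :=
  open Classical in
  if h : ExDiv c (lev M s) then indV (lev_dvd M s) (lev_dvd M s) e (wH (lev_dvd M s) h) else 0

/-- up -/
def IS' (s t : Finset ℕ) : VS p e s →ₗ[ℚ_[p]] VS p e t :=
  open Classical in
  if h : lev M s ∣ lev M t then indV (lev_dvd M s) (lev_dvd M t) e (upH h (lev_dvd M t)) else 0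

/-- down -/
def JS' (s t : Finset ℕ) : VS p e t →ₗ[ℚ_[p]] VS p e s :=
  open Classical in
  if h : lev M s ∣ lev M t then indV (lev_dvd M t) (lev_dvd M s) e (dnH h (lev_dvd M t)) else 0

variable {p}

theorem wS'_eq {s : Finset ℕ} {c : ℕ} (h : ExDiv c (lev M s)) :
    wS' p e s c = indV (lev_dvd M s) (lev_dvd M s) e (wH (lev_dvd M s) h) := dif_pos h

theorem IS'_eq {s t : Finset ℕ} (h : lev M s ∣ lev M t) :
    IS' p e s t = indV (lev_dvd M s) (lev_dvd M t) e (upH h (lev_dvd M t)) := dif_pos h

theorem JS'_eq {s t : Finset ℕ} (h : lev M s ∣ lev M t) :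
    JS' p e s t = indV (lev_dvd M t) (lev_dvd M s) e (dnH h (lev_dvd M t)) := dif_pos h

section Facts

variable (hM : Squarefree M)

include hM

theorem exd {s : Finset ℕ} (hs : s ⊆ M.primeFactors) {c : ℕ} (hc : c ∈ s) :
    ExDiv c (lev M s) :=
  exDiv_of_dvd (hM.squarefree_of_dvd (lev_dvd M s))
    ((dvd_lev_iff hs (Nat.prime_of_mem_primeFactors (hs hc))).mpr hc)

theorem exd_prod {s : Finset ℕ} (hs : s ⊆ M.primeFactors) {D : Finset ℕ} (hD : D ⊆ s) :
    ExDiv (∏ q ∈ D, q) (lev M s) :=
  exDiv_of_dvd (hM.squarefree_of_dvd (lev_dvd M s)) (prod_dvd_lev hs hD)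

end Facts

theorem prm {a : ℕ} (ha : a ∈ M.primeFactors) : a.Prime := Nat.prime_of_mem_primeFactors ha

/-- **the degeneracy system** -/
def sys (hM : Squarefree M) : ZRec.DegSys ℚ_[p] (VS p e) M.primeFactors where
  w := wS' p e
  I := IS' p e
  J := JS' p e
  W := fun s D => wS' p e s (∏ q ∈ D, q)
  w_w := by
    intro s hs c hc x
    rw [wS'_eq e (exd hM hs hc)]
    have h := indV_smul (lev_dvd M s) (lev_dvd M s) e (wH (lev_dvd M s) (exd hM hs hc))
      (wH (lev_dvd M s) (exd hM hs hc)) 1 (fun y => by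
        rw [one_smul]; exact wP_wP iotaQbar _ y) x
    rw [h, Nat.cast_one, one_smul]
  w_comm := by
    intro s hs c hc d hd x
    by_cases hcd : c = d
    · rw [hcd]
    have hcop : Nat.Coprime c d :=
      (Nat.coprime_primes (prm (hs hc)) (prm (hs hd))).mpr hcd
    rw [wS'_eq e (exd hM hs hc), wS'_eq e (exd hM hs hd)]
    have h1 : ExDiv (c * d) (lev M s) := exDiv_of_dvd (hM.squarefree_of_dvd (lev_dvd M s))
      (hcop.mul_dvd_of_dvd_of_dvd (exd hM hs hc).dvd (exd hM hs hd).dvd)
    have h2 : ExDiv (d * c) (lev M s) := by rwa [mul_comm]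
    refine indV_rel2 _ _ _ _ e _ _ _ _ (fun y => ?_) x
    have e1 := wP_mul iotaQbar hcop (exd hM hs hc) (exd hM hs hd) h1 y
    have e2 := wP_mul iotaQbar hcop.symm (exd hM hs hd) (exd hM hs hc) h2 y
    have e3 : wP iotaQbar h1 y = wP iotaQbar h2 y := by
      congr! 2
      exact mul_comm c d
    exact e1.symm.trans (e3.trans e2)
  I_w := by
    intro s hs a ha has c hc x
    have hs' : insert a s ⊆ M.primeFactors := Finset.insert_subset ha hs
    have hd : lev M s ∣ lev M (insert a s) := lev_mono M (Finset.subset_insert a s)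
    rw [IS'_eq e hd, wS'_eq e (exd hM hs hc), wS'_eq e (exd hM hs' (Finset.mem_insert_of_mem hc))]
    exact indV_rel2 _ _ _ _ e _ _ _ _ (fun y => wP_up iotaQbar hd _ _ y) x
  J_w := by
    intro s hs a ha has c hc x
    have hs' : insert a s ⊆ M.primeFactors := Finset.insert_subset ha hs
    have hd : lev M s ∣ lev M (insert a s) := lev_mono M (Finset.subset_insert a s)
    rw [JS'_eq e hd, wS'_eq e (exd hM hs hc), wS'_eq e (exd hM hs' (Finset.mem_insert_of_mem hc))]
    exact indV_rel2 _ _ _ _ e _ _ _ _ (fun y => dn_wP iotaQbar hd _ _ y) x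
  J_I := by
    intro s hs a ha has x
    have hd : lev M s ∣ lev M (insert a s) := lev_mono M (Finset.subset_insert a s)
    rw [JS'_eq e hd, IS'_eq e hd]
    have h := indV_smul (lev_dvd M s) (lev_dvd M (insert a s)) e (upH hd (lev_dvd M _))
      (dnH hd (lev_dvd M _)) (a + 1) (fun y => dn_up (prm ha)
        (fun h => has ((dvd_lev_iff hs (prm ha)).mp h)) hd (lev_insert hs ha has) y) x
    rw [h]
    push_cast
    rfl
  I_I := by
    intro s hs a ha b hb has hbs hab x
    have h1 : lev M s ∣ lev M (insert a s) := lev_mono M (Finset.subset_insert a s)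
    have h2 : lev M s ∣ lev M (insert b s) := lev_mono M (Finset.subset_insert b s)
    have h3 : lev M (insert a s) ∣ lev M (insert b (insert a s)) :=
      lev_mono M (Finset.subset_insert b _)
    have h4 : lev M (insert b s) ∣ lev M (insert b (insert a s)) :=
      lev_mono M (Finset.insert_subset_insert _ (Finset.subset_insert a s))
    rw [IS'_eq e h1, IS'_eq e h2, IS'_eq e h3, IS'_eq e h4]
    exact indV_rel2 _ _ _ _ e _ _ _ _ (fun y => (up_up h1 h3 (h1.trans h3) y).trans
      (up_up h2 h4 (h2.trans h4) y).symm) x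
  J_J := by
    intro s hs a ha b hb has hbs hab x
    have h1 : lev M s ∣ lev M (insert a s) := lev_mono M (Finset.subset_insert a s)
    have h2 : lev M s ∣ lev M (insert b s) := lev_mono M (Finset.subset_insert b s)
    have h3 : lev M (insert a s) ∣ lev M (insert b (insert a s)) :=
      lev_mono M (Finset.subset_insert b _)
    have h4 : lev M (insert b s) ∣ lev M (insert b (insert a s)) :=
      lev_mono M (Finset.insert_subset_insert _ (Finset.subset_insert a s))
    rw [JS'_eq e h1, JS'_eq e h2, JS'_eq e h3, JS'_eq e h4]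
    exact indV_rel2 _ _ _ _ e _ _ _ _ (fun y => (dn_dn h1 h3 (h1.trans h3) y).trans
      (dn_dn h2 h4 (h2.trans h4) y).symm) x
  J_I' := by
    intro s hs a ha b hb has hbs hab x
    have h1 : lev M s ∣ lev M (insert a s) := lev_mono M (Finset.subset_insert a s)
    have h2 : lev M s ∣ lev M (insert b s) := lev_mono M (Finset.subset_insert b s)
    have h3 : lev M (insert a s) ∣ lev M (insert b (insert a s)) :=
      lev_mono M (Finset.subset_insert b _)
    have h4 : lev M (insert b s) ∣ lev M (insert b (insert a s)) :=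
      lev_mono M (Finset.insert_subset_insert _ (Finset.subset_insert a s))
    rw [JS'_eq e h3, IS'_eq e h4, IS'_eq e h1, JS'_eq e h2]
    have hsb : insert b s ⊆ M.primeFactors := Finset.insert_subset hb hs
    have hab' : a ∉ insert b s := by
      rw [Finset.mem_insert, not_or]; exact ⟨hab, has⟩
    have e1 : lev M (insert b (insert a s)) = lev M (insert b s) * a := by
      rw [Finset.insert_comm]
      exact lev_insert hsb ha hab'
    refine indV_rel2 _ _ _ _ e _ _ _ _ (fun y => ?_) x
    exact (up_dn (prm ha) (lev_insert hs ha has) e1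
      (fun h => hab' ((dvd_lev_iff hsb (prm ha)).mp h)) h1 h2 h3 h4 y).symm
  T_inj := by
    intro s hs a ha has x h
    have hs' : insert a s ⊆ M.primeFactors := Finset.insert_subset ha hs
    have hd : lev M s ∣ lev M (insert a s) := lev_mono M (Finset.subset_insert a s)
    have hax : ExDiv a (lev M (insert a s)) := exd hM hs' (Finset.mem_insert_self a s)
    rw [JS'_eq e hd, IS'_eq e hd, wS'_eq e hax] at h
    have ham : ¬ a ∣ lev M s := fun h => has ((dvd_lev_iff hs (prm ha)).mp h)
    let T : HMap M (lev M s) (lev M s) :=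
      { f := (heckeOperatorBar (lev M s) ⟨a, prm ha⟩).toAddMonoidHom
        comm := fun l hl hlM y => by
          haveI : NeZero l := ⟨hl.ne_zero⟩
          haveI : NeZero a := ⟨(prm ha).ne_zero⟩
          have k1 : ∀ z, (dn Qb hd (wP iotaQbar hax (up Qb hd z)) : JZero (lev M s)) =
            heckeOperatorBar (lev M s) ⟨a, prm ha⟩ z :=
            fun z => dn_w_up iotaQbar (prm ha) ham hd (lev_insert hs ha has) hax z
          have k2 := k1 (heckeOperatorBar (lev M s) ⟨l, hl⟩ y)
          have k3 := k1 y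
          show heckeOperatorBar (lev M s) ⟨a, prm ha⟩ (heckeOperatorBar (lev M s) ⟨l, hl⟩ y) =
            heckeOperatorBar (lev M s) ⟨l, hl⟩ (heckeOperatorBar (lev M s) ⟨a, prm ha⟩ y)
          rw [← k2, ← k3]
          have u1 := (upH hd (lev_dvd M (insert a s)) :
            HMap M (lev M s) (lev M (insert a s))).comm l hl hlM y
          have u2 := (wH (lev_dvd M (insert a s)) hax).comm l hl hlM (up Qb hd y)
          have u3 := (dnH hd (lev_dvd M (insert a s)) :
            HMap M (lev M (insert a s)) (lev M s)).comm l hl hlM (wP iotaQbar hax (up Qb hd y))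
          have u1' : up Qb hd (heckeOperatorBar (lev M s) ⟨l, hl⟩ y) =
            heckeOperatorBar (lev M (insert a s)) ⟨l, hl⟩ (up Qb hd y) := u1
          have u2' : wP iotaQbar hax (heckeOperatorBar (lev M (insert a s)) ⟨l, hl⟩
              (up Qb hd y)) = heckeOperatorBar (lev M (insert a s)) ⟨l, hl⟩
              (wP iotaQbar hax (up Qb hd y)) := u2
          rw [u1', u2']
          exact u3 }
    have hT : ∀ z : VS p e s, indV (lev_dvd M (insert a s)) (lev_dvd M s) e
        (dnH hd (lev_dvd M _)) (indV (lev_dvd M (insert a s)) (lev_dvd M (insert a s)) e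
        (wH (lev_dvd M _) hax) (indV (lev_dvd M s) (lev_dvd M (insert a s)) e
        (upH hd (lev_dvd M _)) z)) = indV (lev_dvd M s) (lev_dvd M s) e T z := by
      intro z
      let u : HMap M (lev M s) (lev M (insert a s)) :=
        { f := (wP iotaQbar hax).comp (up Qb hd)
          comm := fun l hl hlM y => by
            have u1 := (upH hd (lev_dvd M (insert a s)) :
              HMap M (lev M s) (lev M (insert a s))).comm l hl hlM y
            have u2 := (wH (lev_dvd M (insert a s)) hax).comm l hl hlM (up Qb hd y)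
            exact (congrArg (wP iotaQbar hax) u1).trans u2 }
      rw [indV_rel1 _ _ _ e (upH hd (lev_dvd M _)) (wH (lev_dvd M _) hax) u (fun y => rfl) z]
      haveI : NeZero a := ⟨(prm ha).ne_zero⟩
      exact indV_rel1 _ _ _ e u (dnH hd (lev_dvd M _)) T
        (fun y => dn_w_up iotaQbar (prm ha) ham hd (lev_insert hs ha has) hax y) z
    rw [hT, hT] at h
    exact indV_inj (lev_dvd M s) e T (prm ha) ham (fun y => rfl) x h
      (fun φ hφ => ZTqb.injective (prm ha) ham (es _) ℤ_[p] φ hφ)
  W_empty := by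
    intro s hs
    have h1 : ExDiv (∏ q ∈ (∅ : Finset ℕ), q) (lev M s) :=
      exd_prod hM hs (Finset.empty_subset s)
    rw [wS'_eq e h1]
    refine indV_id _ e _ (fun y => ?_)
    -- `w_1 = 1`
    have h2 : ExDiv (1 * 1) (lev M s) := by
      have : ExDiv 1 (lev M s) := exDiv_of_dvd (hM.squarefree_of_dvd (lev_dvd M s)) (one_dvd _)
      simpa using this
    have h3 : ExDiv 1 (lev M s) := by simpa using h2
    have e1 := wP_mul iotaQbar (Nat.coprime_one_left 1) h3 h3 h2 y
    rw [wP_wP] at e1
    have e2 : wP iotaQbar h1 y = wP iotaQbar h2 y := by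
      congr! 2
    exact e2.trans e1
  W_insert := by
    intro s hs D hD c hc hcD
    have hcs := exd hM hs hc
    have hDs := exd_prod hM hs hD
    have hcDs : ExDiv (∏ q ∈ insert c D, q) (lev M s) :=
      exd_prod hM hs (Finset.insert_subset hc hD)
    rw [wS'_eq e hcs, wS'_eq e hDs, wS'_eq e hcDs]
    have hcop : Nat.Coprime c (∏ q ∈ D, q) := by
      refine Nat.Coprime.prod_right fun q hq => ?_
      refine (Nat.coprime_primes (prm (hs hc)) (prm (hs (hD hq)))).mpr ?_
      rintro rfl
      exact hcD hq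
    have h3 : ExDiv (c * ∏ q ∈ D, q) (lev M s) := by
      have h4 := hcDs
      rwa [Finset.prod_insert hcD] at h4
    refine LinearMap.ext fun x => ?_
    rw [LinearMap.comp_apply]
    refine (indV_rel1 _ _ _ e _ _ _ (fun y => ?_) x).symm
    have e1 := wP_mul iotaQbar hcop hcs hDs h3 y
    have e2 : wP iotaQbar hcDs y = wP iotaQbar h3 y := by
      congr! 2
      exact Finset.prod_insert hcD
    exact e1.symm.trans e2.symm

end Fermat.Agent.ZDegI
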